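import Mathlib
import Fermat.Prelude.Def_ModularCurve_LaurentCoeff

/-!
# Descent of membership in a base-changed field of Laurent series

If `x ∈ ℚ((q))` and `coeffEmb L x` lies in `laurentBaseChange L F₀ = L · F₀`, then `x ∈ F₀`.
(Apply a `ℚ`-linear functional `L → ℚ` coefficientwise.)
-/

set_option autoImplicit false

noncomputable section

namespace Fermat.Agent.H51.ES1

open ModularCurve

variable {L : Type*} [Field L] [Algebra ℚ L]

/-- Apply a `ℚ`-linear functional coefficientwise. -/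
def coeffFun (φ : L →ₗ[ℚ] ℚ) (y : LaurentSeries L) : LaurentSeries ℚ :=
  y.map (φ : L →+ ℚ)

@[simp]
theorem coeffFun_coeff (φ : L →ₗ[ℚ] ℚ) (y : LaurentSeries L) (n : ℤ) :
    (coeffFun φ y).coeff n = φ (y.coeff n) := rfl

theorem coeffFun_add (φ : L →ₗ[ℚ] ℚ) (y y' : LaurentSeries L) :
    coeffFun φ (y + y') = coeffFun φ y + coeffFun φ y' := by
  ext n
  simp

theorem coeffFun_zero (φ : L →ₗ[ℚ] ℚ) : coeffFun φ (0 : LaurentSeries L) = 0 := by
  ext n
  simp

theorem coeffFun_smul (φ : L →ₗ[ℚ] ℚ) (c : L) (y : LaurentSeries L) :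
    coeffFun φ (c • y) = coeffFun (φ ∘ₗ LinearMap.mulLeft ℚ c) y := by
  ext n
  simp

theorem coeffFun_coeffEmb (φ : L →ₗ[ℚ] ℚ) (f : LaurentSeries ℚ) :
    coeffFun φ (coeffEmb L f) = HahnSeries.C (φ 1) * f := by
  rw [HahnSeries.C_mul_eq_smul]
  ext n
  simp only [coeffFun_coeff, coeffEmb_coeff, HahnSeries.coeff_smul, smul_eq_mul]
  rw [Algebra.algebraMap_eq_smul_one, map_smul, smul_eq_mul, mul_comm]

theorem C_mem (F₀ : IntermediateField ℚ (LaurentSeries ℚ)) (a : ℚ) :
    (HahnSeries.C a : LaurentSeries ℚ) ∈ F₀ := by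
  have h := F₀.algebraMap_mem a
  rwa [algebraMap_laurentSeries_eq_single] at h

omit [Algebra ℚ L] in
theorem algebra_smul_eq (c : L) (y : LaurentSeries L) :
    (algebraMap L (LaurentSeries L) c) * y = HahnSeries.C c * y := by
  rw [algebraMap_laurentSeries_eq_single]
  rfl

theorem coeffEmb_injective : Function.Injective (coeffEmb L) := by
  intro x y h
  ext n
  have := congrArg (fun z : LaurentSeries L => z.coeff n) h
  simp only [coeffEmb_coeff] at this
  exact (algebraMap ℚ L).injective this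

/-- The key property, proved by induction on the `L`-span of `coeffEmb L '' F₀`. -/
theorem coeffFun_span (F₀ : IntermediateField ℚ (LaurentSeries ℚ)) (x : LaurentSeries ℚ)
    {y : LaurentSeries L}
    (hy : y ∈ @Submodule.span L (LaurentSeries L) _ _ Algebra.toModule
      (⇑(coeffEmb L) '' (F₀ : Set (LaurentSeries ℚ)))) :
    ∀ φ : L →ₗ[ℚ] ℚ, coeffFun φ y ∈ F₀ ∧
      coeffFun φ (coeffEmb L x * y) = x * coeffFun φ y := by
  induction hy using Submodule.span_induction with
  | mem y hy =>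
    obtain ⟨f, hf, rfl⟩ := hy
    intro φ
    refine ⟨?_, ?_⟩
    · rw [coeffFun_coeffEmb]
      exact F₀.mul_mem (C_mem F₀ _) hf
    · rw [← map_mul, coeffFun_coeffEmb, coeffFun_coeffEmb, mul_left_comm]
  | zero =>
    intro φ
    rw [mul_zero, coeffFun_zero, mul_zero]
    exact ⟨F₀.zero_mem, rfl⟩
  | add y y' _ _ ih ih' =>
    intro φ
    refine ⟨?_, ?_⟩
    · rw [coeffFun_add]
      exact F₀.add_mem (ih φ).1 (ih' φ).1
    · rw [mul_add, coeffFun_add, coeffFun_add, (ih φ).2, (ih' φ).2, mul_add]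
  | smul c y _ ih =>
    intro φ
    refine ⟨?_, ?_⟩
    · rw [Algebra.smul_def, algebra_smul_eq, HahnSeries.C_mul_eq_smul, coeffFun_smul]
      exact (ih _).1
    · rw [Algebra.smul_def, algebra_smul_eq, mul_left_comm, HahnSeries.C_mul_eq_smul,
        HahnSeries.C_mul_eq_smul, coeffFun_smul, coeffFun_smul]
      exact (ih _).2

/-- The algebra generated by `coeffEmb L '' F₀` is its `L`-span. -/
theorem adjoin_coeffEmb_image (F₀ : IntermediateField ℚ (LaurentSeries ℚ)) :
    Subalgebra.toSubmodule (Algebra.adjoin L (⇑(coeffEmb L) '' (F₀ : Set (LaurentSeries ℚ)))) =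
      @Submodule.span L (LaurentSeries L) _ _ Algebra.toModule
        (⇑(coeffEmb L) '' (F₀ : Set (LaurentSeries ℚ))) := by
  rw [Algebra.adjoin_eq_span]
  congr 1
  have h : (⇑(coeffEmb L) '' (F₀ : Set (LaurentSeries ℚ))) =
      ((F₀.toSubfield.toSubring.toSubmonoid.map (coeffEmb L : LaurentSeries ℚ →* LaurentSeries L) :
        Submonoid (LaurentSeries L)) : Set (LaurentSeries L)) := by
    ext z
    simp
  rw [h, Submonoid.closure_eq]

/-- **Descent**: a series with rational coefficients which lies in `L · F₀` lies in `F₀`. -/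
theorem mem_of_coeffEmb_mem (F₀ : IntermediateField ℚ (LaurentSeries ℚ)) (x : LaurentSeries ℚ)
    (hx : coeffEmb L x ∈ laurentBaseChange L F₀) : x ∈ F₀ := by
  obtain ⟨r, hr, s, hs, hxrs⟩ := IntermediateField.mem_adjoin_iff_div.mp hx
  have hr' : r ∈ @Submodule.span L (LaurentSeries L) _ _ Algebra.toModule
      (⇑(coeffEmb L) '' (F₀ : Set (LaurentSeries ℚ))) := by
    rw [← adjoin_coeffEmb_image]; exact hr
  have hs' : s ∈ @Submodule.span L (LaurentSeries L) _ _ Algebra.toModule
      (⇑(coeffEmb L) '' (F₀ : Set (LaurentSeries ℚ))) := by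
    rw [← adjoin_coeffEmb_image]; exact hs
  by_cases hs0 : s = 0
  · rw [hs0, div_zero] at hxrs
    have : x = 0 := coeffEmb_injective (L := L) (by rw [hxrs, map_zero])
    rw [this]
    exact F₀.zero_mem
  have hmul : coeffEmb L x * s = r := by
    rw [hxrs, div_mul_cancel₀ _ hs0]
  -- a coefficient of `s` which does not vanish, and a functional which sees it
  obtain ⟨n, hn⟩ : ∃ n, s.coeff n ≠ 0 := by
    by_contra hno
    push Not at hno
    exact hs0 (HahnSeries.ext (funext hno))
  obtain ⟨φ, hφ⟩ : ∃ φ : L →ₗ[ℚ] ℚ, φ (s.coeff n) ≠ 0 := by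
    by_contra hno
    push Not at hno
    exact hn ((Module.forall_dual_apply_eq_zero_iff ℚ (s.coeff n)).mp hno)
  have hsφ : coeffFun φ s ≠ 0 := by
    intro h0
    have := congrArg (fun z : LaurentSeries ℚ => z.coeff n) h0
    simp only [coeffFun_coeff, HahnSeries.coeff_zero] at this
    exact hφ this
  have h1 := (coeffFun_span F₀ x hs' φ)
  have h2 := (coeffFun_span F₀ x hr' φ).1
  rw [← hmul, h1.2] at h2
  have : x = x * coeffFun φ s / coeffFun φ s := by
    rw [mul_div_assoc, div_self hsφ, mul_one]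
  rw [this]
  exact F₀.div_mem h2 h1.1

end Fermat.Agent.H51.ES1

end
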