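import Fermat.Agent.H91.ES1KL.Interfaces1
import Fermat.Agent.H94.EsA.Final
import Fermat.Agent.H32.ES1.Model1A
import Fermat.Agent.H51.ES1.CoeffDescent

/-!
# P-DS / ES1-KL-SYM1 (row 807): the coefficients of `Q_M = ∏ (X - v_d)` lie in the function
field of `X₀(M)`

Route A (analytic): the holomorphic functions `V_d` are permuted by `Γ₀(M)`, so the coefficients
of `∏ (X - V_d)` (product over the distinct `V_d`) are holomorphic, `Γ₀(M)`-invariant and of
moderate growth; by `ModularFunctionStatement` their `q`-expansions lie in `ℂ · F₀(M)`, and the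
descent `ℂ → ℚ` is `mem_of_coeffEmb_mem`.
-/

set_option autoImplicit false

noncomputable section

namespace Fermat.Agent.H51.ES1

open Polynomial UpperHalfPlane ModularCurve CongruenceSubgroup
open Fermat.Agent.H29.ES1 Fermat.Agent.H44 Fermat.Agent.H94.EsA Fermat.Agent.H91.ES1KL
open Fermat.Agent.H32.ES1M
open scoped MatrixGroups Manifold

/-- The subring of pairs `(h, x)`: `h` a function of moderate growth with `q`-expansion `x`. -/
def relSubring : Subring ((ℍ → ℂ) × LaurentSeries ℂ) where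
  carrier := {p | LaurentRel p.1 p.2 ∧ HasModerateGrowth p.1}
  mul_mem' := fun ha hb => ⟨ha.1.mul hb.1, growth_mul ha.2 hb.2⟩
  one_mem' := ⟨laurentRel_one, growth_const 1⟩
  add_mem' := fun ha hb => ⟨ha.1.add hb.1, growth_add ha.2 hb.2⟩
  zero_mem' := ⟨laurentRel_zero, growth_const 0⟩
  neg_mem' := by
    rintro ⟨h, x⟩ ⟨h1, h2⟩
    refine ⟨?_, ?_⟩
    · have := h1.smul (-1)
      have e1 : (-1 : ℂ) • h = -h := by
        funext z
        simp
      have e2 : (-1 : ℂ) • x = -x := by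
        ext n
        simp
      rwa [e1, e2] at this
    · have := growth_mul (growth_const (-1)) h2
      have e : (fun _ : ℍ => (-1 : ℂ)) * h = -h := by
        funext z
        simp
      rwa [e] at this

theorem mem_relSubring {p : (ℍ → ℂ) × LaurentSeries ℂ} :
    p ∈ relSubring ↔ LaurentRel p.1 p.2 ∧ HasModerateGrowth p.1 := Iff.rfl

/-- first projection -/
def relFst : ↥relSubring →+* (ℍ → ℂ) :=
  (RingHom.fst (ℍ → ℂ) (LaurentSeries ℂ)).comp relSubring.subtype

/-- second projection -/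
def relSnd : ↥relSubring →+* LaurentSeries ℂ :=
  (RingHom.snd (ℍ → ℂ) (LaurentSeries ℂ)).comp relSubring.subtype

theorem rel_of_mem (p : ↥relSubring) : LaurentRel (relFst p) (relSnd p) := p.2.1

theorem growth_of_mem (p : ↥relSubring) : HasModerateGrowth (relFst p) := p.2.2

/-- Precomposition with the action of `γ`, as a ring homomorphism. -/
def precomp (γ : SL(2, ℤ)) : (ℍ → ℂ) →+* (ℍ → ℂ) :=
  RingHom.pi fun z => Pi.evalRingHom (fun _ : ℍ => ℂ) (γ • z)

@[simp]
theorem precomp_apply (γ : SL(2, ℤ)) (h : ℍ → ℂ) (z : ℍ) : precomp γ h z = h (γ • z) := rfl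

theorem precomp_injective (γ : SL(2, ℤ)) : Function.Injective (precomp γ) := by
  intro h h' e
  funext z
  have := congrFun e (γ⁻¹ • z)
  simpa using this

variable (M : ℕ) [NeZero M]

/-- the function attached to a value `v ∈ vValues M` -/
def Vf (v : LaurentSeries ℚ) : ℍ → ℂ := by
  classical
  exact if h : ∃ d : (ZMod M)ˣ, vGen M (d : ZMod M) = v then VFun M ((h.choose : (ZMod M)ˣ) : ZMod M)
    else 0

omit [NeZero M] in
theorem unit_ne_zero' (hM : 5 ≤ M) (a : (ZMod M)ˣ) : (a : ZMod M) ≠ 0 := by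
  have : Fact (1 < M) := ⟨by omega⟩
  exact a.ne_zero

theorem Vf_vGen (hV : VFunStatement) (hM : 5 ≤ M) (d : (ZMod M)ˣ) :
    Vf M (vGen M (d : ZMod M)) = VFun M (d : ZMod M) := by
  classical
  have h : ∃ d' : (ZMod M)ˣ, vGen M (d' : ZMod M) = vGen M (d : ZMod M) := ⟨d, rfl⟩
  unfold Vf
  rw [dif_pos h]
  have h1 := (hV M ((h.choose : (ZMod M)ˣ) : ZMod M) (unit_ne_zero' M hM _)).2.1
  have h2 := (hV M (d : ZMod M) (unit_ne_zero' M hM d)).2.1
  rw [h.choose_spec] at h1
  exact h1.unique_left h2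

theorem mem_vValues {v : LaurentSeries ℚ} :
    v ∈ vValues M ↔ ∃ d : (ZMod M)ˣ, vGen M (d : ZMod M) = v := by
  classical
  unfold vValues
  simp

theorem Vf_rel (hV : VFunStatement) (hM : 5 ≤ M) {v : LaurentSeries ℚ} (hv : v ∈ vValues M) :
    LaurentRel (Vf M v) (coeffEmb ℂ v) ∧ HasModerateGrowth (Vf M v) := by
  obtain ⟨d, rfl⟩ := (mem_vValues M).mp hv
  rw [Vf_vGen M hV hM d]
  exact ⟨(hV M (d : ZMod M) (unit_ne_zero' M hM d)).2.1,
    (hV M (d : ZMod M) (unit_ne_zero' M hM d)).2.2.2⟩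

theorem Vf_injOn (hV : VFunStatement) (hM : 5 ≤ M) :
    Set.InjOn (Vf M) (vValues M : Set (LaurentSeries ℚ)) := by
  intro v hv w hw e
  have h1 := (Vf_rel M hV hM hv).1
  have h2 := (Vf_rel M hV hM hw).1
  rw [e] at h1
  exact coeffEmb_injective (h1.unique_right h2)

/-- the upper left entry of an element of `Γ₀(M)` is a unit modulo `M` -/
theorem exists_unit_upperLeft {γ : SL(2, ℤ)} (hγ : γ ∈ Gamma0 M) :
    ∃ u : (ZMod M)ˣ, (u : ZMod M) = (((γ : Matrix (Fin 2) (Fin 2) ℤ) 0 0 : ℤ) : ZMod M) := by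
  have hdet := Matrix.SpecialLinearGroup.det_coe γ
  rw [Matrix.det_fin_two] at hdet
  have hc : (((γ : Matrix (Fin 2) (Fin 2) ℤ) 1 0 : ℤ) : ZMod M) = 0 := Gamma0_mem.mp hγ
  have h1 : (((γ : Matrix (Fin 2) (Fin 2) ℤ) 0 0 : ℤ) : ZMod M) *
      (((γ : Matrix (Fin 2) (Fin 2) ℤ) 1 1 : ℤ) : ZMod M) = 1 := by
    have := congrArg (fun n : ℤ => (n : ZMod M)) hdet
    simp only [Int.cast_sub, Int.cast_mul, Int.cast_one, hc, mul_zero, sub_zero] at this
    exact this
  exact ⟨Units.mkOfMulEqOne _ _ h1, rfl⟩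

/-- the permutation of the values induced by `γ ∈ Γ₀(M)` -/
theorem precomp_Vf (hV : VFunStatement) (hM : 5 ≤ M) {γ : SL(2, ℤ)} (hγ : γ ∈ Gamma0 M)
    {v : LaurentSeries ℚ} (hv : v ∈ vValues M) :
    ∃ w ∈ vValues M, precomp γ (Vf M v) = Vf M w := by
  obtain ⟨d, rfl⟩ := (mem_vValues M).mp hv
  obtain ⟨u, hu⟩ := exists_unit_upperLeft M hγ
  refine ⟨vGen M ((u * d : (ZMod M)ˣ) : ZMod M), (mem_vValues M).mpr ⟨u * d, rfl⟩, ?_⟩
  rw [Vf_vGen M hV hM d, Vf_vGen M hV hM (u * d)]
  funext z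
  rw [precomp_apply, (hV M (d : ZMod M) (unit_ne_zero' M hM d)).2.2.1 γ hγ z, ← hu, Units.val_mul]

/-- the polynomial `∏ (X - V)` over the ring of functions -/
def VPolyFun : (ℍ → ℂ)[X] := ∏ v ∈ vValues M, (X - C (Vf M v))

theorem VPolyFun_invariant (hV : VFunStatement) (hM : 5 ≤ M) {γ : SL(2, ℤ)} (hγ : γ ∈ Gamma0 M) :
    (VPolyFun M).map (precomp γ) = VPolyFun M := by
  classical
  unfold VPolyFun
  rw [Polynomial.map_prod]
  simp only [Polynomial.map_sub, Polynomial.map_X, Polynomial.map_C]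
  -- the induced self-map of `vValues M`
  choose! τ hτ1 hτ2 using fun v (hv : v ∈ vValues M) => precomp_Vf M hV hM hγ hv
  have hinj : Set.InjOn τ (vValues M : Set (LaurentSeries ℚ)) := by
    intro v hv w hw e
    apply Vf_injOn M hV hM hv hw
    apply precomp_injective γ
    rw [hτ2 v hv, hτ2 w hw, e]
  have himg : (vValues M).image τ = vValues M := by
    apply Finset.eq_of_subset_of_card_le
    · intro w hw
      obtain ⟨v, hv, rfl⟩ := Finset.mem_image.mp hw
      exact hτ1 v hv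
    · rw [Finset.card_image_of_injOn hinj]
  calc ∏ v ∈ vValues M, (X - C (precomp γ (Vf M v)))
      = ∏ v ∈ vValues M, (X - C (Vf M (τ v))) :=
        Finset.prod_congr rfl fun v hv => by rw [hτ2 v hv]
    _ = ∏ w ∈ (vValues M).image τ, (X - C (Vf M w)) :=
        (Finset.prod_image (f := fun w => X - C (Vf M w)) hinj).symm
    _ = ∏ v ∈ vValues M, (X - C (Vf M v)) := by rw [himg]

/-- the polynomial over the subring of pairs -/
def relPoly (hV : VFunStatement) (hM : 5 ≤ M) : (↥relSubring)[X] := by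
  classical
  exact ∏ v ∈ (vValues M).attach,
    (X - C (⟨(Vf M v.1, coeffEmb ℂ v.1), Vf_rel M hV hM v.2⟩ : ↥relSubring))

theorem relPoly_map_fst (hV : VFunStatement) (hM : 5 ≤ M) :
    (relPoly M hV hM).map relFst = VPolyFun M := by
  classical
  unfold relPoly VPolyFun
  rw [Polynomial.map_prod]
  simp only [Polynomial.map_sub, Polynomial.map_X, Polynomial.map_C]
  exact Finset.prod_attach (vValues M) (fun v => X - C (Vf M v))

theorem relPoly_map_snd (hV : VFunStatement) (hM : 5 ≤ M) :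
    (relPoly M hV hM).map relSnd = (vPoly M).map (coeffEmb ℂ) := by
  classical
  unfold relPoly vPoly
  rw [Polynomial.map_prod, Polynomial.map_prod]
  simp only [Polynomial.map_sub, Polynomial.map_X, Polynomial.map_C]
  exact Finset.prod_attach (vValues M) (fun v => X - C (coeffEmb ℂ v))

/-- **SYM1**, from `VFunStatement`. -/
theorem sym1_of_vFun (hV : VFunStatement) : Sym1Statement := by
  intro M _ hM k
  -- the `k`-th coefficient as a function
  set E : ℍ → ℂ := (VPolyFun M).coeff k with hE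
  have hrel : LaurentRel E (coeffEmb ℂ ((vPoly M).coeff k)) := by
    have h := rel_of_mem ((relPoly M hV hM).coeff k)
    rw [← Polynomial.coeff_map, ← Polynomial.coeff_map, relPoly_map_fst, relPoly_map_snd,
      Polynomial.coeff_map] at h
    exact h
  have hgr : HasModerateGrowth E := by
    have h := growth_of_mem ((relPoly M hV hM).coeff k)
    rw [← Polynomial.coeff_map, relPoly_map_fst] at h
    exact h
  have hinv : ∀ (γ : ↥(Gamma0 M)) (z : ℍ), E ((γ : SL(2, ℤ)) • z) = E z := by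
    intro γ z
    have h := congrArg (fun P : (ℍ → ℂ)[X] => P.coeff k z) (VPolyFun_invariant M hV hM γ.2)
    simp only [Polynomial.coeff_map, precomp_apply] at h
    exact h
  obtain ⟨x, hx⟩ := modularFunction M E hrel.mdifferentiable hinv hgr
  have hmem : coeffEmb ℂ ((vPoly M).coeff k) ∈ laurentBaseChange ℂ (modularFunctionFieldFull M) := by
    rw [hrel.unique_right hx]
    exact x.2
  exact mem_of_coeffEmb_mem _ _ hmem

end Fermat.Agent.H51.ES1

end
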