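import Fermat.Agent.H51.ES1.Sym1
import Fermat.Agent.H41.ES1.J1SmoothFinal

/-!
# P-DS / ES1-KL-SYM1 (row 807), unconditional form
-/

set_option autoImplicit false

namespace Fermat.Agent.H51.ES1

/-- **SYM1**, unconditional: the coefficients of `Q_M = ∏ (X - v_d)` lie in the function field
of `X₀(M)`. -/
theorem sym1 : Fermat.Agent.H91.ES1KL.Sym1Statement :=
  sym1_of_vFun Fermat.Agent.H41.ES1.vFunStatement_h41

end Fermat.Agent.H51.ES1
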